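import Fermat.Agent.NV.Kc.Defs
import Fermat.Agent.NV.Root
import Fermat.Agent.NV.Equiv
import Fermat.Agent.C24.Cards

set_option autoImplicit false

/-!
# NV task T3-Basic (TWIN FILE: read the header of `NV/Kc/Defs.lean`)

Formal properties of `HasChar`.

SKETCH.
* `exists_root` (the key): let `(a, w, h)` be the data of `HasChar N m f χ`, and `thetaIncl a' = f * w' ^ m`.  Write `w' / w = b / c` with `b c : A0 N`
  nonzero (`thetaIncl_exists_div`).  Then `a' * c ^ m = a * b ^ m` in `A0 N` (`thetaIncl_injective`), so with `B = PhiB b`, `C = PhiB c`, `y = PhiB a'`: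
  `y * C ^ m = (h * B) ^ m` as functions.  Hence for every `τ`: `(TPt τ y).order = m * ((TPt τ (h B)).order - (TPt τ C).order)`
  (`TPt τ` is a ring hom to a field, `HahnSeries.order_mul`, `order_pow`), and `NV.exists_root` gives a holomorphic `h₀` with `h₀ ^ m = y`.
  `(h₀ * C) ^ m = (h * B) ^ m`, so `h₀ * C = ζ * h * B` (`NV.eq_mul_of_pow_eq`).  `h * B` is `χ`-equivariant (`B`, `C` are invariant: `act_PhiB`), so `h₀ * C` is, and
  `IsEqv.of_mul` gives the equivariance of `h₀`.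
* `unique`: `exists_root` for the data of the second, then `eq_mul_of_pow_eq` and `IsEqv.unique`.
* the others are direct from the definition.
-/

open UpperHalfPlane ModularForm CongruenceSubgroup AlgebraicCurve IntermediateField
open scoped MatrixGroups Manifold

namespace Fermat.Agent.C24

open Fermat.Agent.S24

open Fermat.Agent.NV

namespace Ch

theorem basic_mdiff (N : ℕ) [NeZero N] (a : A0 N) : MDiff (PhiB N a : ℍ → ℂ) :=
  Btil_le_holSub N (PhiB N a).2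

theorem basic_ne_zero (N : ℕ) [NeZero N] {a : A0 N} (ha : a ≠ 0) : (PhiB N a : ℍ → ℂ) ≠ 0 := by
  intro h
  apply ha
  apply PhiB_injective N
  rw [map_zero]
  exact Subtype.ext h

theorem basic_mul (N : ℕ) [NeZero N] (a b : A0 N) :
    (PhiB N (a * b) : ℍ → ℂ) = (PhiB N a : ℍ → ℂ) * (PhiB N b : ℍ → ℂ) := by
  rw [map_mul]; rfl

theorem basic_pow (N : ℕ) [NeZero N] (a : A0 N) (k : ℕ) :
    (PhiB N (a ^ k) : ℍ → ℂ) = (PhiB N a : ℍ → ℂ) ^ k := by
  rw [map_pow]; rfl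

theorem basic_one (N : ℕ) [NeZero N] : (PhiB N 1 : ℍ → ℂ) = 1 := by
  rw [map_one]; rfl

/-- the functions `PhiB N a` are `Γ₀(N)`-invariant. -/
theorem isEqv_PhiB (N : ℕ) [NeZero N] (a : A0 N) : IsEqv N 1 (PhiB N a : ℍ → ℂ) := by
  intro γ z
  have h := act_PhiB N ((γ : SL(2, ℤ))⁻¹) ((Gamma0 N).inv_mem γ.2) a
  have h2 := congrFun (congrArg Subtype.val h) z
  rw [coe_actB, act_apply, inv_inv] at h2
  rw [h2]
  simp

theorem HasChar.ne_zero {N : ℕ} [NeZero N] {m : ℕ} {f : FN N} {χ : Chr N}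
    (h : HasChar N m f χ) : f ≠ 0 := by
  obtain ⟨a, w, h₁, ha, hw, e, -, -⟩ := h
  rintro rfl
  rw [zero_mul] at e
  exact ha (thetaIncl_injective N (e.trans (map_zero _).symm))

theorem basic_root_ne_zero {N : ℕ} [NeZero N] {m : ℕ} {a : A0 N} (ha : a ≠ 0) {h : ℍ → ℂ}
    (hm : 0 < m) (hr : IsRoot N m a h) : h ≠ 0 := by
  rintro rfl
  apply basic_ne_zero N ha
  funext z
  rw [← hr.2 z]
  simp [hm.ne']

/-- every representative in `A0 N` of the class of `f` has a `χ`-equivariant holomorphic root. -/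
theorem HasChar.exists_root {N : ℕ} [NeZero N] {m : ℕ} (hm : 0 < m) {f : FN N} {χ : Chr N}
    (h : HasChar N m f χ) (a' : A0 N) (w' : FN N) (hw' : w' ≠ 0)
    (e : thetaIncl N a' = f * w' ^ m) : ∃ h' : ℍ → ℂ, IsRoot N m a' h' ∧ IsEqv N χ h' := by
  have hf := h.ne_zero
  obtain ⟨a, w, h₁, ha, hw, e₁, hr, he⟩ := h
  have ha' : a' ≠ 0 := by
    rintro rfl
    rw [map_zero] at e
    exact mul_ne_zero hf (pow_ne_zero m hw') e.symm
  obtain ⟨b, c, hc, hbc⟩ := thetaIncl_exists_div N (w' / w)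
  have hθc : thetaIncl N c ≠ 0 := fun h0 => hc (thetaIncl_injective N (h0.trans (map_zero _).symm))
  have hb : b ≠ 0 := by
    rintro rfl
    rw [map_zero, zero_div] at hbc
    exact div_ne_zero hw' hw hbc
  have hrel : w' * thetaIncl N c = w * thetaIncl N b := by
    rw [div_eq_div_iff hw hθc] at hbc
    rw [hbc, mul_comm]
  have hA : a' * c ^ m = a * b ^ m := by
    apply thetaIncl_injective N
    rw [map_mul, map_mul, map_pow, map_pow, e, e₁, mul_assoc, mul_assoc, ← mul_pow, ← mul_pow, hrel]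
  set y : ℍ → ℂ := (PhiB N a' : ℍ → ℂ) with hy
  set B : ℍ → ℂ := (PhiB N b : ℍ → ℂ) with hB
  set C : ℍ → ℂ := (PhiB N c : ℍ → ℂ) with hC
  have hyd : MDiff y := basic_mdiff N a'
  have hBd : MDiff B := basic_mdiff N b
  have hCd : MDiff C := basic_mdiff N c
  have hy0 : y ≠ 0 := basic_ne_zero N ha'
  have hB0 : B ≠ 0 := basic_ne_zero N hb
  have hC0 : C ≠ 0 := basic_ne_zero N hc
  have hh0 : h₁ ≠ 0 := basic_root_ne_zero ha hm hr
  have hfun : y * C ^ m = (h₁ * B) ^ m := by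
    have h1 := congrArg (fun t : A0 N => (PhiB N t : ℍ → ℂ)) hA
    simp only [basic_mul, basic_pow] at h1
    rw [hy, hC, h1, mul_pow]
    congr 1
    funext z
    exact (hr.2 z).symm
  have hord : ∀ τ : ℍ, (m : ℤ) ∣ (TPt τ ⟨y, hyd⟩).order := by
    intro τ
    have h1 : TPt τ ⟨y, hyd⟩ * TPt τ ⟨C, hCd⟩ ^ m = TPt τ ⟨h₁ * B, hr.1.mul hBd⟩ ^ m := by
      rw [← map_pow, ← map_pow, ← map_mul]
      congr 1
      exact Subtype.ext hfun
    have n1 : TPt τ ⟨y, hyd⟩ ≠ 0 := fun h0 =>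
      hy0 (congrArg Subtype.val (TPt_injective τ (h0.trans (map_zero _).symm)))
    have n2 : TPt τ ⟨C, hCd⟩ ≠ 0 := fun h0 =>
      hC0 (congrArg Subtype.val (TPt_injective τ (h0.trans (map_zero _).symm)))
    have h2 := congrArg HahnSeries.order h1
    rw [HahnSeries.order_mul n1 (pow_ne_zero m n2), HahnSeries.order_pow, HahnSeries.order_pow,
      nsmul_eq_mul, nsmul_eq_mul] at h2
    exact ⟨(TPt τ ⟨h₁ * B, hr.1.mul hBd⟩).order - (TPt τ ⟨C, hCd⟩).order, by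
      rw [mul_sub]; linarith⟩
  obtain ⟨h₀, hh₀d, hh₀⟩ := NV.exists_root hm hyd hy0 hord
  refine ⟨h₀, ⟨hh₀d, hh₀⟩, ?_⟩
  obtain ⟨ζ, hζ, hζe⟩ := eq_mul_of_pow_eq hm (hh₀d.mul hCd) (hr.1.mul hBd) (by
    intro z
    have := congrFun hfun z
    simp only [Pi.mul_apply, Pi.pow_apply] at this ⊢
    rw [mul_pow, hh₀ z, this])
  have e1 : IsEqv N χ (h₁ * B) := by
    have := he.mul (isEqv_PhiB N b)
    have h1 : χ * 1 = χ := MonoidHom.ext fun γ => by simp
    rwa [h1] at this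
  have e2 : IsEqv N χ (h₀ * C) := by
    intro γ z
    rw [hζe, hζe, e1 γ z]
    ring
  exact IsEqv.of_mul hh₀d hCd hC0 e2 (isEqv_PhiB N c)

theorem HasChar.unique {N : ℕ} [NeZero N] {m : ℕ} (hm : 0 < m) {f : FN N} {χ χ' : Chr N}
    (h : HasChar N m f χ) (h' : HasChar N m f χ') : χ = χ' := by
  obtain ⟨a', w', h₁, ha', hw', e', hr', he'⟩ := h'
  obtain ⟨h₂, hr₂, he₂⟩ := h.exists_root hm a' w' hw' e'
  obtain ⟨ζ, hζ, hζe⟩ := eq_mul_of_pow_eq hm hr₂.1 hr'.1 (by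
    intro z
    rw [hr₂.2 z, hr'.2 z])
  have hζ0 : ζ ≠ 0 := by
    rintro rfl
    rw [zero_pow hm.ne'] at hζ
    exact zero_ne_one hζ
  have e1 : IsEqv N χ h₁ := by
    intro γ z
    have := he₂ γ z
    rw [hζe, hζe] at this
    apply mul_left_cancel₀ hζ0
    rw [this]
    ring
  exact IsEqv.unique (basic_root_ne_zero ha' hm hr') e1 he'

theorem HasChar.pow_eq_one {N : ℕ} [NeZero N] {m : ℕ} (hm : 0 < m) {f : FN N} {χ : Chr N}
    (h : HasChar N m f χ) : χ ^ m = 1 := by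
  obtain ⟨a, w, h₁, ha, hw, e, hr, he⟩ := h
  have h1 : h₁ ^ m = (PhiB N a : ℍ → ℂ) := funext hr.2
  have e1 := he.pow m
  rw [h1] at e1
  exact IsEqv.unique (basic_ne_zero N ha) e1 (isEqv_PhiB N a)

theorem HasChar.mul {N : ℕ} [NeZero N] {m : ℕ} {f f' : FN N} {χ χ' : Chr N}
    (h : HasChar N m f χ) (h' : HasChar N m f' χ') : HasChar N m (f * f') (χ * χ') := by
  obtain ⟨a, w, h₁, ha, hw, e, hr, he⟩ := h
  obtain ⟨a', w', h₁', ha', hw', e', hr', he'⟩ := h'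
  refine ⟨a * a', w * w', h₁ * h₁', mul_ne_zero ha ha', mul_ne_zero hw hw', ?_,
    ⟨hr.1.mul hr'.1, fun z => ?_⟩, he.mul he'⟩
  · rw [map_mul, e, e', mul_pow]
    ring
  · rw [basic_mul, Pi.mul_apply, Pi.mul_apply, mul_pow, hr.2 z, hr'.2 z]

theorem HasChar.mul_pow {N : ℕ} [NeZero N] {m : ℕ} {f : FN N} {χ : Chr N}
    (h : HasChar N m f χ) (u : FN N) (hu : u ≠ 0) : HasChar N m (f * u ^ m) χ := by
  obtain ⟨a, w, h₁, ha, hw, e, hr, he⟩ := h
  refine ⟨a, w / u, h₁, ha, div_ne_zero hw hu, ?_, hr, he⟩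
  rw [e, div_pow]
  have : u ^ m ≠ 0 := pow_ne_zero m hu
  field_simp

theorem hasChar_pow (N : ℕ) [NeZero N] (m : ℕ) (u : FN N) (hu : u ≠ 0) :
    HasChar N m (u ^ m) 1 := by
  refine ⟨1, u⁻¹, 1, one_ne_zero, inv_ne_zero hu, ?_, ⟨mdifferentiable_const, fun z => ?_⟩, ?_⟩
  · rw [map_one, ← mul_pow, mul_inv_cancel₀ hu, one_pow]
  · rw [basic_one]
    simp
  · intro γ z
    simp

theorem HasChar.inv {N : ℕ} [NeZero N] {m : ℕ} (hm : 0 < m) {f : FN N} {χ : Chr N}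
    (h : HasChar N m f χ) : HasChar N m f⁻¹ χ⁻¹ := by
  have hχ := h.pow_eq_one hm
  have hf := h.ne_zero
  obtain ⟨a, w, h₁, ha, hw, e, hr, he⟩ := h
  have hθa : thetaIncl N a ≠ 0 := fun h0 => ha (thetaIncl_injective N (h0.trans (map_zero _).symm))
  have hχ' : χ⁻¹ = χ ^ (m - 1) := by
    refine MonoidHom.ext fun γ => ?_
    have h1 : (χ γ) ^ m = 1 := by
      have := DFunLike.congr_fun hχ γ
      simpa using this
    rw [MonoidHom.inv_apply, MonoidHom.pow_apply, eq_comm, ← mul_eq_one_iff_eq_inv, ← pow_succ,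
      Nat.sub_add_cancel hm, h1]
  rw [hχ']
  refine ⟨a ^ (m - 1), thetaIncl N a / w, h₁ ^ (m - 1), pow_ne_zero _ ha, div_ne_zero hθa hw, ?_,
    ⟨hr.1.pow _, fun z => ?_⟩, he.pow _⟩
  · have h1 : thetaIncl N a ^ m = thetaIncl N a ^ (m - 1) * thetaIncl N a := by
      rw [← pow_succ, Nat.sub_add_cancel hm]
    rw [map_pow, div_pow, h1]
    nth_rewrite 3 [e]
    have : w ^ m ≠ 0 := pow_ne_zero m hw
    field_simp
  · rw [basic_pow, Pi.pow_apply, Pi.pow_apply, ← pow_mul, mul_comm, pow_mul, hr.2 z]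

/-- compatibility for `m' ∣ m`: the same `f`, the character `χ ^ (m / m')`. -/
theorem HasChar.of_mul {N : ℕ} [NeZero N] {m' d : ℕ} {f : FN N} {χ : Chr N}
    (h : HasChar N (m' * d) f χ) : HasChar N m' f (χ ^ d) := by
  obtain ⟨a, w, h₁, ha, hw, e, hr, he⟩ := h
  refine ⟨a, w ^ d, h₁ ^ d, ha, pow_ne_zero _ hw, ?_, ⟨hr.1.pow _, fun z => ?_⟩, he.pow _⟩
  · rw [e, ← pow_mul, mul_comm d m']
  · rw [Pi.pow_apply, ← pow_mul, mul_comm d m', hr.2 z]

end Ch

end Fermat.Agent.C24
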