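import Fermat.Agent.NV.Kc.Defs
import Fermat.Agent.C24.Cards

set_option autoImplicit false

/-!
# NV task T2-DivB (TWIN FILE: read the header of `NV/Kc/Defs.lean`)

If the divisor of `a ∈ A0 N` is divisible by `m`, all zeros of the function `PhiB N a` on `ℍ` have multiplicity divisible by `m`.

SKETCH.  `f ↦ (theta N (ptChart N τ) 1 f).order` is a valuation of `FN N` trivial on constants: `IsVal Kc _`
(`S24/PlaceOfVal.lean`; compare `Count.isVal_order` and `AbsCount.isVal_comp` in `S24/Count.lean`, `S24/AbsCount.lean`; it is non trivial because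
`jF N - c`, `iotaC c = jFun τ`... CAREFUL: `jFun τ` need not be in the range of `iotaC`.  If the valuation is trivial on `FN N`, then the
order of `theta .. (thetaIncl N a)` is `0` and there is nothing to prove.  So distinguish the two cases.)
`IsVal.exists_place` gives a place `v` and `μ > 0` with `(theta .. f).order = μ * v.ord f`.
Finally `theta N (ptChart N τ) 1 (thetaIncl N a) = TPt τ (PhiB N a)` (`theta_incl`, `CardsC.ptChart_onB`, `degree_actB_one`).
-/

open UpperHalfPlane ModularForm CongruenceSubgroup AlgebraicCurve IntermediateField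
open scoped MatrixGroups Manifold

namespace Fermat.Agent.C24

open Fermat.Agent.S24

open Fermat.Agent.NV

namespace Ch

/-- the order in a chart is either trivial or a multiple of a place. -/
theorem divB_exists_place (N : ℕ) [NeZero N] (θ : FN N →+* LaurentSeries ℂ)
    (hθ : ∀ a : Kc, ∃ c : ℂ, θ (algebraMap Kc (FN N) a) = HahnSeries.C c) :
    (∀ f : FN N, f ≠ 0 → (θ f).order = 0) ∨
    ∃ (v : Place Kc (FN N)) (μ : ℤ), 0 < μ ∧ ∀ f : FN N, f ≠ 0 → (θ f).order = μ * v.ord f := by
  by_cases hnt : ∃ f : FN N, f ≠ 0 ∧ (θ f).order ≠ 0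
  · right
    have hv : IsVal Kc (fun f : FN N => (θ f).order) :=
      { map_mul := fun f g hf hg => by
          simp only [map_mul]
          exact HahnSeries.order_mul ((map_ne_zero θ).mpr hf) ((map_ne_zero θ).mpr hg)
        map_add := fun f g _ _ hfg => by
          simp only [map_add]
          exact HahnSeries.min_order_le_order_add (by rw [← map_add]; exact (map_ne_zero θ).mpr hfg)
        map_const := fun a _ => by
          obtain ⟨c, hc⟩ := hθ a
          simp only [hc]
          exact (HahnSeries.order_C).ge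
        nontrivial := hnt }
    obtain ⟨v, μ, hμ, h, -⟩ := hv.exists_place
    exact ⟨v, μ, hμ, h⟩
  · left
    push Not at hnt
    exact hnt

theorem dvd_order_TPt (N : ℕ) [NeZero N] (m : ℕ) (a : A0 N) (ha : a ≠ 0)
    (hd : DivBy N m (thetaIncl N a)) (τ : ℍ) :
    (m : ℤ) ∣ (TPt τ ⟨(PhiB N a : ℍ → ℂ), Btil_le_holSub N (PhiB N a).2⟩).order := by
  have hta : thetaIncl N a ≠ 0 := fun h0 => ha (thetaIncl_injective N (h0.trans (map_zero _).symm))
  have e : theta N (ptChart N τ) 1 (thetaIncl N a) =
      TPt τ ⟨(PhiB N a : ℍ → ℂ), Btil_le_holSub N (PhiB N a).2⟩ := by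
    rw [theta_incl, degree_actB_one, CardsC.ptChart_onB]
  rw [← e]
  rcases divB_exists_place N (theta N (ptChart N τ) 1)
    (fun c => ⟨_, theta_const N (ptChart N τ) 1 c⟩) with h | ⟨v, μ, -, h⟩
  · rw [h _ hta]
    exact dvd_zero _
  · rw [h _ hta]
    exact Dvd.dvd.mul_left (hd v) μ

end Ch

end Fermat.Agent.C24
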